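/-
S56, block F (FLAT), leaf [FL-D], algebraic half (helper22): **a lift to `k[ε]` whose inertia
coinvariants are large is ordinary, and the cocycle of an ordinary lift is upper triangular up to a
coboundary.**

`ρA` a lift of `ρ̄` to `A = k[ε]` (`k` finite), `P` a place of `ℚ̄`, `I_P ⊂ D_P` inertia and
decomposition groups, `J = augSub ρA P` the `A`-submodule of `ρA.V` generated by the
`σ v − v`, `σ ∈ I_P` (so `V/J = V_{I_P}`).

* `exists_basis_eq_span` : if `I_P` acts non-trivially on `ρ̄` and `|A| ≤ |V/J|` then `J = A·b₀`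
  for a basis `b` of `ρA.V`; `ordinary_clause` : the frozen `IsOrdinaryAt` clause at `P`.
* `normalForm_ord_mat`, `normalForm_ord`, `normalForm_ord_ad0` : for a lift with a `D_P`-stable
  line `L = A·b₀` such that `I_P` acts trivially on `V/L`: the reduction `k·v₀` of `L` is a
  `D_P`-stable line of `ρ̄` with `I_P` acting trivially on the quotient, and there is `x ∈ ad⁰ρ̄`
  with `(c σ − (σ·x − x)) (k v₀) ⊆ k v₀` for all `σ ∈ D_P`, `c` the cocycle of any model of `ρA`.
* `exists_sub_mem_W1` : the same in the vocabulary of `Loc/BorelCore` and `Loc/StrictOrdAt`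
  (`IsSOBasis`, `W1`), for the local Galois group.
-/
import Mathlib
import Fermat.Agent.S56.Loc.StrictOrdAt

set_option autoImplicit false
set_option linter.unusedSectionVars false
set_option linter.style.haveILetI false

noncomputable section

namespace Fermat.Agent.S56.Flat.PThree.OrdLift

open IsLocalRing Fermat.Agent.S53 Matrix Fermat.Agent.S56.Tan.Cocycle
  Fermat.Agent.S56.Loc.StrictOrdNormalForm Fermat.Agent.S56.Places.Dict
  Fermat.Agent.S56.Loc.BorelCore Fermat.Agent.S56.Loc.StrictOrdAt ExtCitation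

local notation "Qbar" => AlgebraicClosure ℚ

/-! ### a submodule of a free module of rank two containing a basis vector, with large quotient -/

section Count

variable {A V : Type*} [CommRing A] [Finite A] [AddCommGroup V] [Module A V]

/-- `V/(A·b₀) ≃ A` -/
def quotSpanEquiv (b : Module.Basis (Fin 2) A V) :
    (V ⧸ Submodule.span A {b 0}) ≃ₗ[A] A := by
  refine (Submodule.quotEquivOfEq _ _ ?_).trans
    ((b.coord 1).quotKerEquivOfSurjective ?_)
  · ext v
    rw [LinearMap.mem_ker, Submodule.mem_span_singleton]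
    constructor
    · rintro ⟨a, rfl⟩
      simp
    · intro h
      refine ⟨b.coord 0 v, ?_⟩
      conv_rhs => rw [← b.sum_repr v]
      rw [Fin.sum_univ_two]
      have h1 : b.repr v 1 = 0 := h
      rw [h1, zero_smul, add_zero]
      rfl
  · intro a
    exact ⟨a • b 1, by simp⟩

theorem eq_span_of_card_le (b : Module.Basis (Fin 2) A V) (J : Submodule A V) (hb : b 0 ∈ J)
    (hcard : Nat.card A ≤ Nat.card (V ⧸ J)) : J = Submodule.span A {b 0} := by
  have hLJ : Submodule.span A {b 0} ≤ J := (Submodule.span_singleton_le_iff_mem _ _).mpr hb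
  haveI : Finite V := Finite.of_equiv _ b.equivFun.symm.toEquiv
  let g : (V ⧸ Submodule.span A {b 0}) →ₗ[A] (V ⧸ J) := Submodule.mapQ _ _ LinearMap.id hLJ
  have hg : Function.Surjective g := by
    intro y
    induction y using Submodule.Quotient.induction_on with
    | _ v => exact ⟨Submodule.Quotient.mk v, rfl⟩
  have hc : Nat.card (V ⧸ Submodule.span A {b 0}) = Nat.card A :=
    Nat.card_congr (quotSpanEquiv b).toEquiv
  haveI : Finite (V ⧸ Submodule.span A {b 0}) :=
    Finite.of_equiv _ (quotSpanEquiv b).symm.toEquiv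
  have hbij : Function.Bijective g := hg.bijective_of_nat_card_le (by rw [hc]; exact hcard)
  refine le_antisymm ?_ hLJ
  intro x hx
  have h1 : g (Submodule.Quotient.mk x) = 0 := by
    show Submodule.Quotient.mk (LinearMap.id x) = (0 : V ⧸ J)
    rw [Submodule.Quotient.mk_eq_zero]
    exact hx
  have h2 := hbij.1 (h1.trans (map_zero g).symm)
  rwa [Submodule.Quotient.mk_eq_zero] at h2

end Count

/-! ### extension of a vector to a basis of `k[ε]²` -/

section BasisExt

variable {k : Type} [Field k]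

/-- a vector of `k[ε]²` with non-zero reduction is the first vector of a basis -/
theorem exists_basis_fun (u : Fin 2 → DualNumber k) (hu : fstV u ≠ 0) :
    ∃ b : Module.Basis (Fin 2) (DualNumber k) (Fin 2 → DualNumber k), b 0 = u := by
  -- the second column
  obtain ⟨w, hw⟩ : ∃ w : Fin 2 → DualNumber k,
      IsUnit (Matrix.of ![![u 0, w 0], ![u 1, w 1]] : M2 (DualNumber k)).det := by
    by_cases h0 : TrivSqZeroExt.fst (u 0) = 0
    · have h1 : TrivSqZeroExt.fst (u 1) ≠ 0 := by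
        intro h1
        apply hu
        ext i
        fin_cases i
        · exact h0
        · exact h1
      refine ⟨![1, 0], ?_⟩
      rw [Matrix.det_fin_two, TrivSqZeroExt.isUnit_iff_isUnit_fst]
      simp only [Matrix.of_apply, Matrix.cons_val_zero, Matrix.cons_val_one,
        mul_zero, zero_sub, one_mul, TrivSqZeroExt.fst_neg]
      exact isUnit_iff_ne_zero.mpr (neg_ne_zero.mpr h1)
    · refine ⟨![0, 1], ?_⟩
      rw [Matrix.det_fin_two, TrivSqZeroExt.isUnit_iff_isUnit_fst]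
      simp only [Matrix.of_apply, Matrix.cons_val_zero, Matrix.cons_val_one,
        mul_one, zero_mul, sub_zero]
      exact isUnit_iff_ne_zero.mpr h0
  refine ⟨(Pi.basisFun (DualNumber k) (Fin 2)).map
    (Matrix.toLinearEquiv (Pi.basisFun (DualNumber k) (Fin 2)) _ hw), ?_⟩
  rw [Module.Basis.map_apply, Matrix.toLinearEquiv_apply, Matrix.toLin_eq_toLin',
    Pi.basisFun_apply, Matrix.toLin'_apply, Matrix.mulVec_single_one]
  funext i
  fin_cases i <;> rfl

end BasisExt

/-! ### the augmentation submodule of the inertia group -/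

section Aug

variable {A : Type} [CommRing A] [IsLocalRing A] (ρ : GaloisRepAdic A)
  (P : ValuationSubring Qbar)

/-- the `A`-submodule of `ρ.V` generated by the `σ v − v`, `σ ∈ I_P`: `V/J` is the module of
coinvariants of the inertia group -/
def augSub : Submodule A ρ.V :=
  Submodule.span A {y | ∃ σ ∈ P.inertiaSubgroupIn ℚ, ∃ v : ρ.V, y = ρ.ρ σ v - v}

theorem sub_mem_augSub {σ : GQ} (hσ : σ ∈ P.inertiaSubgroupIn ℚ) (v : ρ.V) :
    ρ.ρ σ v - v ∈ augSub ρ P :=
  Submodule.subset_span ⟨σ, hσ, v, rfl⟩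

/-- the decomposition group stabilises `J` -/
theorem map_mem_augSub {g : GQ} (hg : g ∈ P.decompositionSubgroup ℚ) {y : ρ.V}
    (hy : y ∈ augSub ρ P) : ρ.ρ g y ∈ augSub ρ P := by
  induction hy using Submodule.span_induction with
  | mem y hy =>
    obtain ⟨σ, hσ, v, rfl⟩ := hy
    have h1 : ρ.ρ g (ρ.ρ σ v - v) = ρ.ρ (g * σ * g⁻¹) (ρ.ρ g v) - ρ.ρ g v := by
      rw [map_sub, map_mul, map_mul, Module.End.mul_apply, Module.End.mul_apply,
        ← Module.End.mul_apply (ρ.ρ g⁻¹), ← map_mul, inv_mul_cancel, map_one, Module.End.one_apply]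
    rw [h1]
    exact sub_mem_augSub ρ P (conj_mem_inertia_of_mem_decomposition P hg hσ) _
  | zero => rw [map_zero]; exact Submodule.zero_mem _
  | add x y _ _ hx hy => rw [map_add]; exact Submodule.add_mem _ hx hy
  | smul a x _ hx => rw [map_smul]; exact Submodule.smul_mem _ _ hx

end Aug

/-! ### large coinvariants: the lift is ordinary -/

section Ordinary

variable {k : Type} [Field k] {ρbar : ResidualGaloisRep k} {ρA : GaloisRepAdic (DualNumber k)}
  (m : Model ρbar ρA) (P : ValuationSubring Qbar)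

include m in
/-- if the inertia group acts non-trivially on `ρ̄`, `J` contains a vector with non-zero
reduction, hence a basis vector -/
theorem exists_basis_mem_augSub (hram : ∃ σ ∈ P.inertiaSubgroupIn ℚ, ρbar.ρ σ ≠ 1) :
    ∃ b : Module.Basis (Fin 2) (DualNumber k) ρA.V, b 0 ∈ augSub ρA P := by
  obtain ⟨e⟩ := m.equiv
  let E : ρA.V ≃ₗ[DualNumber k] (Fin 2 → DualNumber k) := e.toLinearEquiv
  have hE : ∀ (σ : GQ) (y : ρA.V), E (ρA.ρ σ y) = (m.M σ) *ᵥ (E y) := fun σ y => e.map_apply σ y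
  obtain ⟨σ₀, hσ₀, hne⟩ := hram
  -- a vector moved by `ρ̄ σ₀`
  have hmat : resMat ρbar σ₀ ≠ 1 := by
    intro h
    apply hne
    rw [← toM_symm_resMat, h, map_one]
  obtain ⟨w, hw⟩ : ∃ w : Fin 2 → k, resMat ρbar σ₀ *ᵥ w - w ≠ 0 := by
    by_contra hall
    push Not at hall
    apply hmat
    apply Matrix.toLin'.injective
    refine LinearMap.ext fun w => ?_
    rw [Matrix.toLin'_apply, Matrix.toLin'_one, LinearMap.id_apply]
    exact sub_eq_zero.mp (hall w)
  set j₀ : ρA.V := ρA.ρ σ₀ (E.symm (inlV w)) - E.symm (inlV w) with hj₀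
  have hfst : fstV (E j₀) = resMat ρbar σ₀ *ᵥ w - w := by
    rw [hj₀, map_sub, hE, LinearEquiv.apply_symm_apply, fstV_sub, fstV_mulVec, m.redM_apply,
      fstV_inlV]
  obtain ⟨b', hb'⟩ := exists_basis_fun (E j₀) (by rw [hfst]; exact hw)
  refine ⟨b'.map E.symm, ?_⟩
  rw [Module.Basis.map_apply, hb', LinearEquiv.symm_apply_apply]
  exact sub_mem_augSub ρA P hσ₀ _

variable [Finite k]

instance finite_dualNumber : Finite (DualNumber k) :=
  Finite.of_equiv (k × k) ⟨fun x => TrivSqZeroExt.inl x.1 + TrivSqZeroExt.inr x.2,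
    fun y => (TrivSqZeroExt.fst y, TrivSqZeroExt.snd y),
    fun x => by simp, fun y => by ext <;> simp⟩

include m in
/-- **large inertia coinvariants ⇒ `J` is a free direct summand of rank one.** -/
theorem exists_basis_eq_span (hram : ∃ σ ∈ P.inertiaSubgroupIn ℚ, ρbar.ρ σ ≠ 1)
    (hcard : Nat.card (DualNumber k) ≤ Nat.card (ρA.V ⧸ augSub ρA P)) :
    ∃ b : Module.Basis (Fin 2) (DualNumber k) ρA.V,
      augSub ρA P = Submodule.span (DualNumber k) {b 0} := by
  obtain ⟨b, hb⟩ := exists_basis_mem_augSub m P hram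
  exact ⟨b, eq_span_of_card_le b _ hb hcard⟩

include m in
/-- **the frozen `IsOrdinaryAt` clause at `P`** for a lift with large inertia coinvariants -/
theorem ordinary_clause (hram : ∃ σ ∈ P.inertiaSubgroupIn ℚ, ρbar.ρ σ ≠ 1)
    (hcard : Nat.card (DualNumber k) ≤ Nat.card (ρA.V ⧸ augSub ρA P)) :
    ∃ L : Submodule (DualNumber k) ρA.V,
      (∃ b : Module.Basis (Fin 2) (DualNumber k) ρA.V, L = Submodule.span (DualNumber k) {b 0}) ∧
      (∀ σ ∈ P.decompositionSubgroup ℚ, ∀ v ∈ L, ρA.ρ σ v ∈ L) ∧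
      (∀ σ ∈ P.inertiaSubgroupIn ℚ, ∀ v : ρA.V, ρA.ρ σ v - v ∈ L) :=
  ⟨augSub ρA P, exists_basis_eq_span m P hram hcard,
    fun _ hσ _ hv => map_mem_augSub ρA P hσ hv, fun _ hσ v => sub_mem_augSub ρA P hσ v⟩

end Ordinary

/-! ### the normal form of an ordinary lift -/

section NormalForm

variable {k : Type} [Field k] {ρbar : ResidualGaloisRep k} {ρA : GaloisRepAdic (DualNumber k)}
  (m : Model ρbar ρA)

include m in
/-- **normal form of an ordinary lift, matrix form.**  `L = A·b₀` a line of `ρA` stable under `D_P`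
with `I_P` acting trivially on the quotient.  Then the reduction `k·ū` of `L` is a `D_P`-stable line
of `ρ̄` with `I_P` acting trivially on the quotient, and the cocycle of `ρA`, corrected by the
coboundary of a suitable `X`, stabilises `k·ū` on `D_P`. -/
theorem normalForm_ord_mat (P : ValuationSubring Qbar)
    (b : Module.Basis (Fin 2) (DualNumber k) ρA.V)
    {L : Submodule (DualNumber k) ρA.V} (hL : L = Submodule.span (DualNumber k) {b 0})
    (hD : ∀ σ ∈ P.decompositionSubgroup ℚ, ∀ v ∈ L, ρA.ρ σ v ∈ L)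
    (hI : ∀ σ ∈ P.inertiaSubgroupIn ℚ, ∀ v : ρA.V, ρA.ρ σ v - v ∈ L) :
    ∃ (ū : Fin 2 → k) (X : M2 k), ū ≠ 0 ∧
      (∀ σ ∈ P.decompositionSubgroup ℚ, ∃ xb : k, resMat ρbar σ *ᵥ ū = xb • ū) ∧
      (∀ σ ∈ P.inertiaSubgroupIn ℚ, ∀ v : Fin 2 → k, ∃ α : k,
        resMat ρbar σ *ᵥ v - v = α • ū) ∧
      (∀ σ ∈ P.decompositionSubgroup ℚ, ∃ β : k,
        (cocMat m.M σ - (resMat ρbar σ * X * resMat ρbar σ⁻¹ - X)) *ᵥ ū = β • ū) := by
  obtain ⟨e⟩ := m.equiv
  let E : ρA.V ≃ₗ[DualNumber k] (Fin 2 → DualNumber k) := e.toLinearEquiv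
  have hE : ∀ (σ : GQ) (y : ρA.V), E (ρA.ρ σ y) = (m.M σ) *ᵥ (E y) := fun σ y => e.map_apply σ y
  set u : Fin 2 → DualNumber k := E (b 0) with hu
  have hb0 : b 0 ∈ L := hL ▸ Submodule.mem_span_singleton_self _
  -- the reduction of the generator is nonzero
  have hū : fstV u ≠ 0 := by
    intro h0
    have h1 : E ((DualNumber.eps : DualNumber k) • b 0) = 0 := by
      rw [map_smul]; exact eps_smul_eq_zero_of_fstV_eq_zero h0
    have h3 : (DualNumber.eps : DualNumber k) • b 0 = 0 := by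
      rwa [map_eq_zero_iff E E.injective] at h1
    have h4 := congrArg (fun v => b.repr v 0) h3
    simp only [map_smul, Module.Basis.repr_self, Finsupp.smul_apply, Finsupp.single_eq_same,
      smul_eq_mul, mul_one, map_zero, Finsupp.zero_apply] at h4
    have h5 := congrArg TrivSqZeroExt.snd h4
    rw [DualNumber.snd_eps, TrivSqZeroExt.snd_zero] at h5
    exact one_ne_zero h5
  -- `σ ∈ D_P` acts on `u` by a scalar
  have T1 : ∀ σ ∈ P.decompositionSubgroup ℚ, ∃ x : DualNumber k, (m.M σ) *ᵥ u = x • u := by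
    intro σ hσ
    have h1 := hD σ hσ _ hb0
    rw [hL] at h1
    obtain ⟨x, hx⟩ := Submodule.mem_span_singleton.mp h1
    refine ⟨x, ?_⟩
    rw [hu, ← hE, ← hx, map_smul]
  have T2 : ∀ σ ∈ P.inertiaSubgroupIn ℚ, ∀ v' : Fin 2 → DualNumber k,
      ∃ t : DualNumber k, (m.M σ) *ᵥ v' - v' = t • u := by
    intro σ hσ v'
    have h1 := hI σ hσ (E.symm v')
    rw [hL] at h1
    obtain ⟨t, ht⟩ := Submodule.mem_span_singleton.mp h1
    refine ⟨t, ?_⟩
    have h3 := congrArg E ht
    rw [map_smul, map_sub, hE, LinearEquiv.apply_symm_apply] at h3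
    exact h3.symm
  obtain ⟨X, hX⟩ := exists_mulVec_eq hū (-(sndV u))
  refine ⟨fstV u, X, hū, ?_, ?_, ?_⟩
  · intro σ hσ
    obtain ⟨x, hx⟩ := T1 σ hσ
    refine ⟨TrivSqZeroExt.fst x, ?_⟩
    have h1 := congrArg fstV hx
    rwa [fstV_mulVec, fstV_smul, m.redM_apply] at h1
  · intro σ hσ v
    obtain ⟨t, ht⟩ := T2 σ hσ (inlV v)
    refine ⟨TrivSqZeroExt.fst t, ?_⟩
    have h1 := congrArg fstV ht
    rwa [fstV_sub, fstV_mulVec, fstV_smul, m.redM_apply, fstV_inlV] at h1
  · intro σ hσ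
    obtain ⟨x, hx⟩ := T1 σ hσ
    set xb : k := TrivSqZeroExt.fst x with hxb
    set Mb : M2 k := resMat ρbar σ with hMb
    set Mbi : M2 k := resMat ρbar σ⁻¹ with hMbi
    set S : M2 k := sndM (m.M σ) with hS
    set C' : M2 k := cocMat m.M σ - (Mb * X * Mbi - X) with hC'
    have hMM : Mb * Mbi = 1 := by
      rw [hMb, hMbi, ← map_mul, mul_inv_cancel, map_one]
    have hMM' : Mbi * Mb = 1 := by
      rw [hMb, hMbi, ← map_mul, inv_mul_cancel, map_one]
    have hfst : fstM (m.M σ) = Mb := m.redM_apply σ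
    have hCM : C' * Mb = S - Mb * X + X * Mb := by
      have h1 : cocMat m.M σ * Mb = S := by
        have := sndM_eq m.M σ
        rw [Tan.Cocycle.redM_apply, hfst] at this
        exact this.symm
      rw [hC', sub_mul, h1, sub_mul, mul_assoc (Mb * X), hMM', mul_one]
      abel
    have hu1 := congrArg fstV hx
    rw [fstV_mulVec, fstV_smul, hfst] at hu1
    have hu2 := congrArg sndV hx
    rw [sndV_mulVec, sndV_smul, hfst] at hu2
    -- `x̄ ≠ 0`
    have hxb0 : xb ≠ 0 := by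
      intro h0
      rw [← hxb, h0, zero_smul] at hu1
      have h1 : Mbi *ᵥ (Mb *ᵥ fstV u) = 0 := by rw [hu1, Matrix.mulVec_zero]
      rw [Matrix.mulVec_mulVec, hMM', Matrix.one_mulVec] at h1
      exact hū h1
    -- `(C' M̄) ū = snd x • ū`
    have h1 : (C' * Mb) *ᵥ fstV u = TrivSqZeroExt.snd x • fstV u := by
      rw [hCM, Matrix.add_mulVec, Matrix.sub_mulVec, ← Matrix.mulVec_mulVec,
        ← Matrix.mulVec_mulVec, hX, hu1, Matrix.mulVec_smul, hX, Matrix.mulVec_neg]
      have h5 : S *ᵥ fstV u =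
          TrivSqZeroExt.fst x • sndV u + TrivSqZeroExt.snd x • fstV u - Mb *ᵥ sndV u := by
        rw [← hu2]; abel
      rw [h5, smul_neg]
      abel
    refine ⟨xb⁻¹ * TrivSqZeroExt.snd x, ?_⟩
    rw [← Matrix.mulVec_mulVec, hu1, Matrix.mulVec_smul] at h1
    rw [mul_smul, ← h1, smul_smul, inv_mul_cancel₀ hxb0, one_smul]

open Fermat.Agent.S56.Ad

include m in
/-- **normal form of an ordinary lift, intrinsic form** (in `ρ̄.V` and `End_k(ρ̄.V)`). -/
theorem normalForm_ord (P : ValuationSubring Qbar)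
    (b : Module.Basis (Fin 2) (DualNumber k) ρA.V)
    {L : Submodule (DualNumber k) ρA.V} (hL : L = Submodule.span (DualNumber k) {b 0})
    (hD : ∀ σ ∈ P.decompositionSubgroup ℚ, ∀ v ∈ L, ρA.ρ σ v ∈ L)
    (hI : ∀ σ ∈ P.inertiaSubgroupIn ℚ, ∀ v : ρA.V, ρA.ρ σ v - v ∈ L) :
    ∃ (v₀ : ρbar.V) (Xe : Module.End k ρbar.V), v₀ ≠ 0 ∧
      (∀ σ ∈ P.decompositionSubgroup ℚ, ∃ xb : k, ρbar.ρ σ v₀ = xb • v₀) ∧
      (∀ σ ∈ P.inertiaSubgroupIn ℚ, ∀ v : ρbar.V, ρbar.ρ σ v - v ∈ Submodule.span k {v₀}) ∧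
      (∀ σ ∈ P.decompositionSubgroup ℚ,
        (cocEnd ρbar m.M σ - (ρbar.ρ σ * Xe * ρbar.ρ σ⁻¹ - Xe)) v₀ ∈ Submodule.span k {v₀}) := by
  obtain ⟨ū, X, hū, hDb, hIn, hC⟩ := normalForm_ord_mat m P b hL hD hI
  have hv₀ : (crd ρbar).symm ū ≠ 0 := by
    intro h0; exact hū ((crd ρbar).symm.injective (by rw [h0, map_zero]))
  have hmat : ∀ σ : GQ, cocEnd ρbar m.M σ - (ρbar.ρ σ * (toM ρbar).symm X * ρbar.ρ σ⁻¹ -
      (toM ρbar).symm X) =
      (toM ρbar).symm (cocMat m.M σ - (resMat ρbar σ * X * resMat ρbar σ⁻¹ - X)) := by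
    intro σ
    rw [map_sub, map_sub, map_mul, map_mul, toM_symm_resMat, toM_symm_resMat]
    rfl
  refine ⟨(crd ρbar).symm ū, (toM ρbar).symm X, hv₀, ?_, ?_, ?_⟩
  · intro σ hσ
    obtain ⟨xb, h1⟩ := hDb σ hσ
    refine ⟨xb, ?_⟩
    have := congrArg (crd ρbar).symm h1
    rwa [crd_symm_mulVec, toM_symm_resMat, map_smul] at this
  · intro σ hσ v
    have h6 : ρbar.ρ σ v - v = (toM ρbar).symm (resMat ρbar σ - (1 : M2 k)) v := by
      rw [map_sub, map_one, toM_symm_resMat]
      rfl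
    rw [h6]
    refine toM_symm_mulVec_mem ρbar (fun w => ?_) v
    obtain ⟨α, hα⟩ := hIn σ hσ w
    exact ⟨α, by rw [Matrix.sub_mulVec, Matrix.one_mulVec, hα]⟩
  · intro σ hσ
    obtain ⟨β, h1⟩ := hC σ hσ
    rw [hmat σ, ← crd_symm_mulVec, h1, map_smul]
    exact Submodule.smul_mem _ _ (Submodule.mem_span_singleton_self _)

variable {p : ℕ} [Fact p.Prime] (hpk : (p : k) = 0) (h2 : (2 : k) ≠ 0)
  (hdet : ρA.DetIsCyclotomic p) [Algebra (ZMod p) k]

include h2 in
/-- **normal form of an ordinary lift in `ad⁰ρ̄`**: there is `x ∈ ad⁰ρ̄` such that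
`c σ − (σ • x − x)` stabilises the line `k v₀` for all `σ ∈ D_P`. -/
theorem normalForm_ord_ad0 (P : ValuationSubring Qbar)
    (b : Module.Basis (Fin 2) (DualNumber k) ρA.V)
    {L : Submodule (DualNumber k) ρA.V} (hL : L = Submodule.span (DualNumber k) {b 0})
    (hD : ∀ σ ∈ P.decompositionSubgroup ℚ, ∀ v ∈ L, ρA.ρ σ v ∈ L)
    (hI : ∀ σ ∈ P.inertiaSubgroupIn ℚ, ∀ v : ρA.V, ρA.ρ σ v - v ∈ L) :
    ∃ (v₀ : ρbar.V) (x : Ad0 ρbar p), v₀ ≠ 0 ∧
      (∀ σ ∈ P.decompositionSubgroup ℚ, ∃ xb : k, ρbar.ρ σ v₀ = xb • v₀) ∧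
      (∀ σ ∈ P.inertiaSubgroupIn ℚ, ∀ v : ρbar.V, ρbar.ρ σ v - v ∈ Submodule.span k {v₀}) ∧
      (∀ σ ∈ P.decompositionSubgroup ℚ,
        Ad0.toEnd ρbar p (m.cocycle p hpk hdet σ - ((ad0 ρbar p).ρ σ x - x)) v₀ ∈
          Submodule.span k {v₀}) := by
  obtain ⟨v₀, Xe, hv₀, hDb, hIn, hC⟩ := normalForm_ord m P b hL hD hI
  set c : k := LinearMap.trace k ρbar.V Xe / 2 with hc
  have htr : LinearMap.trace k ρbar.V (Xe - c • (1 : Module.End k ρbar.V)) = 0 := by
    rw [map_sub, map_smul, LinearMap.trace_one, ρbar.finrank_eq, smul_eq_mul, hc]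
    push_cast
    field_simp
    ring
  refine ⟨v₀, Ad0.mk ρbar p (Xe - c • 1) htr, hv₀, hDb, hIn, fun σ hσ => ?_⟩
  have hconj : ρbar.ρ σ * (Xe - c • (1 : Module.End k ρbar.V)) * ρbar.ρ σ⁻¹ -
      (Xe - c • (1 : Module.End k ρbar.V)) = ρbar.ρ σ * Xe * ρbar.ρ σ⁻¹ - Xe := by
    rw [mul_sub, sub_mul, mul_smul_comm, smul_mul_assoc, mul_one, rho_mul_rho_inv]
    abel
  have hto : Ad0.toEnd ρbar p (m.cocycle p hpk hdet σ -
      ((ad0 ρbar p).ρ σ (Ad0.mk ρbar p (Xe - c • 1) htr) - Ad0.mk ρbar p (Xe - c • 1) htr)) =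
      cocEnd ρbar m.M σ - (ρbar.ρ σ * Xe * ρbar.ρ σ⁻¹ - Xe) := by
    rw [map_sub, map_sub, toEnd_ρ, Ad0.toEnd_mk, hconj]
    rfl
  rw [hto]
  exact hC σ hσ

end NormalForm

/-! ### the local form -/

section LocalForm

open Fermat.Agent.S56.Ad

variable {k : Type} [Field k] {ρbar : ResidualGaloisRep k} {ρA : GaloisRepAdic (DualNumber k)}
  (m : Model ρbar ρA)
variable {p : ℕ} [Fact p.Prime] (hpk : (p : k) = 0) (h2 : (2 : k) ≠ 0)
  (hdet : ρA.DetIsCyclotomic p) [Algebra (ZMod p) k]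

variable (q : Nat.Primes)

include h2 in
/-- **the cocycle of an ordinary lift is upper triangular up to a coboundary** (local Galois group,
vocabulary of `Loc/BorelCore` and `Loc/StrictOrdAt`). -/
theorem exists_sub_mem_W1 (b' : Module.Basis (Fin 2) (DualNumber k) ρA.V)
    {L : Submodule (DualNumber k) ρA.V} (hL : L = Submodule.span (DualNumber k) {b' 0})
    (hD : ∀ σ ∈ (primeLocalPlace q).decompositionSubgroup ℚ, ∀ v ∈ L, ρA.ρ σ v ∈ L)
    (hI : ∀ σ ∈ (primeLocalPlace q).inertiaSubgroupIn ℚ, ∀ v : ρA.V, ρA.ρ σ v - v ∈ L)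
    {b : Module.Basis (Fin 2) k ρbar.V} (hb : IsSOBasis ρbar q b)
    (hram : ∃ σ ∈ (primeLocalPlace q).inertiaSubgroupIn ℚ, LinearMap.det (ρbar.ρ σ) ≠ 1) :
    ∃ x : Ad0 ρbar p, ∀ τ : primeLocalGaloisGroup q,
      m.cocycle p hpk hdet (primeLocalToGlobal q τ) -
        ((ad0 ρbar p).ρ (primeLocalToGlobal q τ) x - x) ∈ W1 ρbar p b := by
  obtain ⟨v₀, x, hv₀, -, hIn, hC⟩ :=
    normalForm_ord_ad0 m hpk h2 hdet (primeLocalPlace q) b' hL hD hI
  have hspan : Submodule.span k {v₀} = Submodule.span k {b 0} :=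
    line_unique ρbar (primeLocalPlace q) hIn hb.2 hram
  refine ⟨x, fun τ => ?_⟩
  rw [mem_W1_iff, ← hspan]
  intro v hv
  obtain ⟨a, rfl⟩ := Submodule.mem_span_singleton.mp hv
  rw [map_smul]
  exact Submodule.smul_mem _ _ (hC _ (primeLocalToGlobal_mem_decomposition q τ))

variable [Finite k]

include h2 in
/-- **[FL-D], algebraic half**: if `ρ̄` has a line with unramified quotient at `q` (`IsSOBasis`),
`det ρ̄` is ramified at `q`, and the inertia coinvariants of the lift `ρA` have at least `|k[ε]|`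
elements, then the cocycle of `ρA` on the local Galois group is cohomologous to a cocycle with
values in the Borel subalgebra `W₁` of the line. -/
theorem exists_sub_mem_W1_of_card_le {b : Module.Basis (Fin 2) k ρbar.V} (hb : IsSOBasis ρbar q b)
    (hram : ∃ σ ∈ (primeLocalPlace q).inertiaSubgroupIn ℚ, LinearMap.det (ρbar.ρ σ) ≠ 1)
    (hcard : Nat.card (DualNumber k) ≤ Nat.card (ρA.V ⧸ augSub ρA (primeLocalPlace q))) :
    ∃ x : Ad0 ρbar p, ∀ τ : primeLocalGaloisGroup q,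
      m.cocycle p hpk hdet (primeLocalToGlobal q τ) -
        ((ad0 ρbar p).ρ (primeLocalToGlobal q τ) x - x) ∈ W1 ρbar p b := by
  have hram' : ∃ σ ∈ (primeLocalPlace q).inertiaSubgroupIn ℚ, ρbar.ρ σ ≠ 1 := by
    obtain ⟨σ, hσ, hd⟩ := hram
    exact ⟨σ, hσ, fun h => hd (by rw [h, map_one])⟩
  obtain ⟨L, ⟨b', hL⟩, hD, hI⟩ := ordinary_clause m (primeLocalPlace q) hram' hcard
  exact exists_sub_mem_W1 m hpk h2 hdet q b' hL hD hI hb hram

end LocalForm

/-! ### the residual representation: a line with unramified quotient from large coinvariants -/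

section Residual

variable {k : Type} [Field k] (ρbar : ResidualGaloisRep k) (P : ValuationSubring Qbar)

/-- the `k`-subspace of `ρ̄.V` generated by the `σ v − v`, `σ ∈ I_P` -/
def augSubRes : Submodule k ρbar.V :=
  Submodule.span k {y | ∃ σ ∈ P.inertiaSubgroupIn ℚ, ∃ v : ρbar.V, y = ρbar.ρ σ v - v}

theorem sub_mem_augSubRes {σ : GQ} (hσ : σ ∈ P.inertiaSubgroupIn ℚ) (v : ρbar.V) :
    ρbar.ρ σ v - v ∈ augSubRes ρbar P :=
  Submodule.subset_span ⟨σ, hσ, v, rfl⟩

theorem map_mem_augSubRes {g : GQ} (hg : g ∈ P.decompositionSubgroup ℚ) {y : ρbar.V}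
    (hy : y ∈ augSubRes ρbar P) : ρbar.ρ g y ∈ augSubRes ρbar P := by
  induction hy using Submodule.span_induction with
  | mem y hy =>
    obtain ⟨σ, hσ, v, rfl⟩ := hy
    have h1 : ρbar.ρ g (ρbar.ρ σ v - v) = ρbar.ρ (g * σ * g⁻¹) (ρbar.ρ g v) - ρbar.ρ g v := by
      rw [map_sub, map_mul, map_mul, Module.End.mul_apply, Module.End.mul_apply,
        ← Module.End.mul_apply (ρbar.ρ g⁻¹), ← map_mul, inv_mul_cancel, map_one,
        Module.End.one_apply]
    rw [h1]
    exact sub_mem_augSubRes ρbar P (conj_mem_inertia_of_mem_decomposition P hg hσ) _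
  | zero => rw [map_zero]; exact Submodule.zero_mem _
  | add x y _ _ hx hy => rw [map_add]; exact Submodule.add_mem _ hx hy
  | smul a x _ hx => rw [map_smul]; exact Submodule.smul_mem _ _ hx

variable [Finite k] (q : Nat.Primes)

/-- **[FL-D], algebraic half for `ρ̄`**: if the inertia group at `q` acts non-trivially on `ρ̄` and
the inertia coinvariants of `ρ̄` have at least `|k|` elements, then `ρ̄` has a line, stable under the
decomposition group, with unramified quotient (namely `(I − 1) V̄`). -/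
theorem exists_isSOBasis_of_card_le
    (hram : ∃ σ ∈ (primeLocalPlace q).inertiaSubgroupIn ℚ, ρbar.ρ σ ≠ 1)
    (hcard : Nat.card k ≤ Nat.card (ρbar.V ⧸ augSubRes ρbar (primeLocalPlace q))) :
    ∃ b : Module.Basis (Fin 2) k ρbar.V, IsSOBasis ρbar q b := by
  obtain ⟨σ₀, hσ₀, hne⟩ := hram
  obtain ⟨v, hv⟩ : ∃ v : ρbar.V, ρbar.ρ σ₀ v - v ≠ 0 := by
    by_contra hall
    push Not at hall
    exact hne (LinearMap.ext fun v => by
      rw [Module.End.one_apply]; exact sub_eq_zero.mp (hall v))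
  obtain ⟨b, hb0⟩ :=
    Fermat.Agent.S56.Loc.StrictOrdMore.exists_basis_of_ne_zero ρbar.finrank_eq hv
  have hmem : b 0 ∈ augSubRes ρbar (primeLocalPlace q) := by
    rw [hb0]; exact sub_mem_augSubRes ρbar _ hσ₀ v
  have hJ := eq_span_of_card_le b _ hmem hcard
  refine ⟨b, fun τ => ?_, fun σ hσ w => ?_⟩
  · rw [isUT_iff_mem_span, ← hJ]
    exact map_mem_augSubRes ρbar _ (primeLocalToGlobal_mem_decomposition q τ) hmem
  · rw [← hJ]
    exact sub_mem_augSubRes ρbar _ hσ w

end Residual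

end Fermat.Agent.S56.Flat.PThree.OrdLift
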