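/-
S56, block F (FLAT), leaf [FL-D], FINAL (helper22): the hypotheses `LocUnrQuot`, `LocUnrSub` of
`Flat/PThree.lean` discharged by helper6's `Etale/Inertial.conn_le_of_inertial` (LocUnr, quotient
form) and by its twin `conn_inf_eq_bot_of_inertial` (sub form, same rigidity lemma
`Unram.eq_of_norm_fwdDiff_le` applied to the restrictions to `N` of the local span), and the
hypothesis-free outputs of [FL-D] for `p ≠ 2`:

* `cocycle_sub_mem_W1_of_isFlatAt` : the cocycle of a flat lift to `k[ε]` of a `ρ̄` with a line with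
  unramified quotient at `p` is cohomologous, on the local Galois group, to a cocycle with values in
  the Borel subalgebra `W₁` of the line;
* `ordinary_clause_of_isFlatAt'` : such a lift satisfies the frozen `IsOrdinaryAt` clause;
* `exists_isSOBasis_of_isFlatAt'` : a `ρ̄` with a flat lift and a `G_p`-stable line with trivial
  inertia action has a line with unramified quotient.
-/
import Mathlib
import Fermat.Agent.S56.Flat.Etale.Inertial
import Fermat.Agent.S56.Flat.PThree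

set_option autoImplicit false
set_option linter.unusedSectionVars false
set_option linter.style.haveILetI false

open GaloisRep Fermat.Agent.S19.Abs Fermat.Agent.S19.Base
open Fermat.Agent.S56.Flat.PointsField Fermat.Agent.S56.Flat.Etale.QuotOrder
open Fermat.Agent.S56.Flat.Etale.Connected Fermat.Agent.S56.Flat.Etale.LocalOrder
open Fermat.Agent.S56.Flat.Etale.Unram Fermat.Agent.S56.Flat.Etale.Inertial

namespace Fermat.Agent.S56.Flat.PThree.Main

section LocUnr

variable {p : ℕ} [Fact p.Prime] {M : Type} [AddCommGroup M] {act : S19.Abs.GQ → M → M}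
  {Hs : Subalgebra (ratLocalizedAt p) (M → Qb)}

/-- **(LocUnr), sub form**: `Hs` a Hopf order on `M`, `p ≥ 3`, `p M = 0`, `N ≤ M` a `G_p`-stable
subgroup on which the inertia group acts trivially.  Then `N` meets the connected subgroup of `Hs`
trivially (the closure of `N` in the model is étale). -/
theorem conn_inf_eq_bot_of_inertial (hp2 : p ≠ 2) (h : IsHopfOrder p act Hs)
    (hpM : ∀ y : M, p • y = 0) (N : AddSubgroup M)
    (hI : ∀ τ : PadicAlgCl p ≃ₐ[ℚ_[p]] PadicAlgCl p, IsInertial τ →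
      ∀ y ∈ N, act (localGaloisToGlobal p τ) y = y) :
    conn p Hs h ⊓ N = ⊥ := by
  have hpr : p.Prime := Fact.out
  rw [eq_bot_iff]
  rintro y ⟨hyC, hyN⟩
  rw [AddSubgroup.mem_bot]
  -- the restrictions to `N` of the local span
  set B : Set (N → PadicAlgCl p) := {χ | ∃ ψ ∈ locSpan Hs, χ = fun n : N => ψ (n : M)} with hB
  have hBcl : ComulClosed B := by
    rintro _ ⟨ψ, hψ, rfl⟩
    obtain ⟨J, hJ, a, b, ha, hb, hab⟩ := locSpan_deltaRepL h ψ hψ
    exact ⟨J, hJ, fun j n => a j (n : M), fun j n => b j (n : M),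
      fun j => ⟨a j, ha j, rfl⟩, fun j => ⟨b j, hb j, rfl⟩, fun n n' => hab n n'⟩
  have hval : ∀ ψ ∈ locSpan Hs, ∀ n ∈ N, ∀ τ : PadicAlgCl p ≃ₐ[ℚ_[p]] PadicAlgCl p,
      IsInertial τ → τ (ψ n) = ψ n := by
    intro ψ hψ n hn τ hτ
    rw [← locSpan_equivariant h ψ hψ τ n]
    show ψ (act (localGaloisToGlobal p τ) n) = ψ n
    rw [hI τ hτ n hn]
  have hq1 : (1 : ℝ) < p := by exact_mod_cast hpr.one_lt
  have hq0 : (0 : ℝ) < p := by exact_mod_cast hpr.pos
  have hr1 : (p : ℝ)⁻¹ ≤ 1 := (inv_lt_one_of_one_lt₀ hq1).le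
  have hr : ((p : ℝ)⁻¹) ^ (p - 1) < ‖(p : PadicAlgCl p)‖ := by
    rw [Fermat.Agent.S55.LocalInt.norm_natCast_self]
    have h3 : 3 ≤ p := by
      have := hpr.two_le
      omega
    exact pow_lt_self_of_lt_one₀ (inv_pos.mpr hq0) (inv_lt_one_of_one_lt₀ hq1) (by omega)
  let yN : N := ⟨y, hyN⟩
  have hper : ∀ χ ∈ B, ∀ z : N, χ (z + p • yN) = χ z := by
    intro χ _ z
    have : p • yN = 0 := Subtype.ext (by rw [AddSubgroup.coe_nsmul, hpM, AddSubgroup.coe_zero])
    rw [this, add_zero]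
  have hcong : ∀ χ ∈ B, ∀ z : N, ‖χ (z + yN) - χ z‖ ≤ (p : ℝ)⁻¹ := by
    rintro _ ⟨ψ, hψ, rfl⟩ z
    refine norm_le_of_fixed (fun τ hτ => ?_) ?_
    · rw [map_sub, hval ψ hψ _ (z + yN).2 τ hτ, hval ψ hψ _ z.2 τ hτ]
    · have h1 : Cong p Hs ((z : M) + y) ((z : M) + 0) :=
        Cong.add h (Cong.refl (z : M)) ((mem_conn h).mp hyC)
      rw [add_zero] at h1
      exact locSpan_cong h1 ψ hψ
  have hrig := eq_of_norm_fwdDiff_le hBcl yN hper (p : ℝ)⁻¹ hr1 hr hcong
  by_contra hy0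
  obtain ⟨φ, hφ, hne⟩ := h.separates y 0 hy0
  apply hne
  have h1 := hrig _ ⟨emb p φ, emb_mem_locSpan hφ, rfl⟩ 0
  simp only [zero_add] at h1
  exact (padicEmbedding p).injective h1


/-- helper6's (LocUnr), quotient form, in the shape consumed by `Flat/PThree.lean` -/
theorem locUnrQuot (hp2 : p ≠ 2) : LocUnrQuot p :=
  fun hact _ h hpM N hN hI => conn_le_of_inertial hp2 hact h hpM N hN hI

/-- (LocUnr), sub form, in the shape consumed by `Flat/PThree.lean` -/
theorem locUnrSub (hp2 : p ≠ 2) : LocUnrSub p :=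
  fun _ _ h hpM N _ hI => conn_inf_eq_bot_of_inertial hp2 h hpM N hI

end LocUnr

/-! ### the outputs of [FL-D] -/

section Final

open Fermat.Agent.S53 Fermat.Agent.S56.Tan.Cocycle Fermat.Agent.S56.Places.Dict
  Fermat.Agent.S56.Loc.BorelCore Fermat.Agent.S56.Loc.StrictOrdAt ExtCitation
  Fermat.Agent.S56.Ad

variable {k : Type} [Field k] [Finite k] {ρbar : ResidualGaloisRep k}
  {ρA : GaloisRepAdic (DualNumber k)} (m : Model ρbar ρA) (q : Nat.Primes)

include m in
/-- **[FL-D]: a flat lift is ordinary** (frozen `IsOrdinaryAt` clause at `primeLocalPlace q`). -/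
theorem ordinary_clause_of_isFlatAt' (hq2 : (q : ℕ) ≠ 2) (hqk : ((q : ℕ) : k) = 0)
    (hflat : ρA.IsFlatAt (q : ℕ)) {b : Module.Basis (Fin 2) k ρbar.V} (hb : IsSOBasis ρbar q b)
    (hram : ∃ σ ∈ (primeLocalPlace q).inertiaSubgroupIn ℚ, ρbar.ρ σ ≠ 1) :
    ∃ L : Submodule (DualNumber k) ρA.V,
      (∃ b' : Module.Basis (Fin 2) (DualNumber k) ρA.V,
        L = Submodule.span (DualNumber k) {b' 0}) ∧
      (∀ σ ∈ (primeLocalPlace q).decompositionSubgroup ℚ, ∀ v ∈ L, ρA.ρ σ v ∈ L) ∧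
      (∀ σ ∈ (primeLocalPlace q).inertiaSubgroupIn ℚ, ∀ v : ρA.V, ρA.ρ σ v - v ∈ L) :=
  ordinary_clause_of_isFlatAt m q (locUnrQuot hq2) hqk hflat hb hram

variable {p : ℕ} [Fact p.Prime] (hpk : (p : k) = 0) (h2 : (2 : k) ≠ 0)
  (hdet : ρA.DetIsCyclotomic p) [Algebra (ZMod p) k]

include h2 in
/-- **[FL-D], lift form** (`q = p ≠ 2`): the cocycle of a flat lift `ρA` of `ρ̄` to `k[ε]`,
restricted to the local Galois group, is cohomologous to a cocycle with values in the Borel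
subalgebra `W₁` of a line `k·b₀` of `ρ̄` with unramified quotient. -/
theorem cocycle_sub_mem_W1_of_isFlatAt (hq2 : (q : ℕ) ≠ 2) (hqk : ((q : ℕ) : k) = 0)
    (hflat : ρA.IsFlatAt (q : ℕ)) {b : Module.Basis (Fin 2) k ρbar.V} (hb : IsSOBasis ρbar q b)
    (hram : ∃ σ ∈ (primeLocalPlace q).inertiaSubgroupIn ℚ, LinearMap.det (ρbar.ρ σ) ≠ 1) :
    ∃ x : Ad0 ρbar p, ∀ τ : primeLocalGaloisGroup q,
      m.cocycle p hpk hdet (primeLocalToGlobal q τ) -
        ((ad0 ρbar p).ρ (primeLocalToGlobal q τ) x - x) ∈ W1 ρbar p b :=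
  exists_sub_mem_W1_of_isFlatAt m q hpk h2 hdet (locUnrQuot hq2) hqk hflat hb hram

include m in
/-- **[FL-D], residual twin**: a `ρ̄` with a flat lift to `k[ε]`, ramified at `q`, with a
`G_q`-stable line on which the inertia group acts trivially, has a line with unramified quotient. -/
theorem exists_isSOBasis_of_isFlatAt' (hq2 : (q : ℕ) ≠ 2) (hqk : ((q : ℕ) : k) = 0)
    (hflat : ρA.IsFlatAt (q : ℕ)) {b : Module.Basis (Fin 2) k ρbar.V}
    (hstab : ∀ τ : primeLocalGaloisGroup q, IsUT b (ρbar.ρ (primeLocalToGlobal q τ)))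
    (hunr : ∀ σ ∈ (primeLocalPlace q).inertiaSubgroupIn ℚ, ρbar.ρ σ (b 0) = b 0)
    (hram : ∃ σ ∈ (primeLocalPlace q).inertiaSubgroupIn ℚ, ρbar.ρ σ ≠ 1) :
    ∃ b' : Module.Basis (Fin 2) k ρbar.V, IsSOBasis ρbar q b' :=
  exists_isSOBasis_of_isFlatAt m q (locUnrSub hq2) hqk hflat hstab hunr hram

end Final

end Fermat.Agent.S56.Flat.PThree.Main
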