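/-
S56, block F (FLAT), leaf [FL-D] (helper6): the named hypotheses `LocUnrQuot`, `LocUnrSub` of
helper22's `Flat/PThree.lean` are theorems (`Etale/Inertial.conn_le_of_inertial`,
`Etale/InertialSub.conn_inf_eq_bot_of_inertial`), and the three outputs of [FL-D] without them:

* `ordinary_clause_of_isFlatAt'` : a flat lift to `k[ε]` of a `ρ̄` with a line with unramified
  quotient at `q ≠ 2` satisfies the frozen `IsOrdinaryAt` clause;
* `exists_sub_mem_W1_of_isFlatAt'` : its cocycle is cohomologous on `G_q` to a cocycle with values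
  in the Borel subalgebra `W₁` of the line;
* `exists_isSOBasis_of_isFlatAt'` : the residual twin.
-/
import Mathlib
import Fermat.Agent.S56.Flat.PThree
import Fermat.Agent.S56.Flat.Etale.InertialSub

set_option autoImplicit false
set_option linter.unusedSectionVars false

open GaloisRep Fermat.Agent.S19.Abs Fermat.Agent.S19.Base
open Fermat.Agent.S56.Flat.Etale.Connected
open IsLocalRing Fermat.Agent.S53 Matrix Fermat.Agent.S56.Tan.Cocycle
  Fermat.Agent.S56.Loc.StrictOrdNormalForm Fermat.Agent.S56.Places.Dict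
  Fermat.Agent.S56.Loc.BorelCore Fermat.Agent.S56.Loc.StrictOrdAt ExtCitation
  Fermat.Agent.S56.Flat.PThree.OrdLift Fermat.Agent.S56.Flat.PThree

namespace Fermat.Agent.S56.Flat.PThree.LocUnrInst

/-- **(LocUnr), quotient form, is a theorem for `p ≠ 2`.** -/
theorem locUnrQuot {p : ℕ} [Fact p.Prime] (hp2 : p ≠ 2) : LocUnrQuot p := by
  intro M _ _ act hact Hs h hpM N hN hI
  exact Fermat.Agent.S56.Flat.Etale.Inertial.conn_le_of_inertial hp2 hact h hpM N hN hI

/-- **(LocUnr), sub form, is a theorem for `p ≠ 2`.** -/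
theorem locUnrSub {p : ℕ} [Fact p.Prime] (hp2 : p ≠ 2) : LocUnrSub p := by
  intro M _ _ act _ Hs h hpM N _ hI
  exact Fermat.Agent.S56.Flat.Etale.InertialSub.conn_inf_eq_bot_of_inertial hp2 h hpM N hI

section Final

open Fermat.Agent.S56.Ad

variable {k : Type} [Field k] [Finite k] {ρbar : ResidualGaloisRep k}
  {ρA : GaloisRepAdic (DualNumber k)} (m : Model ρbar ρA) (q : Nat.Primes)

include m in
/-- **[FL-D]: a flat lift to `k[ε]` of a `ρ̄` with a line with unramified quotient at `q ≠ 2` (and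
`ρ̄` ramified at `q`) satisfies the frozen `IsOrdinaryAt` clause at `primeLocalPlace q`.** -/
theorem ordinary_clause_of_isFlatAt' (hq2 : (q : ℕ) ≠ 2) (hqk : ((q : ℕ) : k) = 0)
    (hflat : ρA.IsFlatAt (q : ℕ)) {b : Module.Basis (Fin 2) k ρbar.V} (hb : IsSOBasis ρbar q b)
    (hram : ∃ σ ∈ (primeLocalPlace q).inertiaSubgroupIn ℚ, ρbar.ρ σ ≠ 1) :
    ∃ L : Submodule (DualNumber k) ρA.V,
      (∃ b' : Module.Basis (Fin 2) (DualNumber k) ρA.V,
        L = Submodule.span (DualNumber k) {b' 0}) ∧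
      (∀ σ ∈ (primeLocalPlace q).decompositionSubgroup ℚ, ∀ v ∈ L, ρA.ρ σ v ∈ L) ∧
      (∀ σ ∈ (primeLocalPlace q).inertiaSubgroupIn ℚ, ∀ v : ρA.V, ρA.ρ σ v - v ∈ L) :=
  haveI : Fact (q : ℕ).Prime := ⟨q.2⟩
  ordinary_clause_of_isFlatAt m q (locUnrQuot hq2) hqk hflat hb hram

variable {p : ℕ} [Fact p.Prime] (hpk : (p : k) = 0) (h2 : (2 : k) ≠ 0)
  (hdet : ρA.DetIsCyclotomic p) [Algebra (ZMod p) k]

include h2 in
/-- **[FL-D], lift form**: for a flat lift `ρA` of `ρ̄` to `k[ε]` with cyclotomic determinant, `ρ̄`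
having a line `k·b₀` with unramified quotient at `q ≠ 2` and `det ρ̄` ramified at `q`: the cocycle of
any model of `ρA`, restricted to the local Galois group at `q`, is cohomologous to a cocycle with
values in the Borel subalgebra `W₁` of the line. -/
theorem exists_sub_mem_W1_of_isFlatAt' (hq2 : (q : ℕ) ≠ 2) (hqk : ((q : ℕ) : k) = 0)
    (hflat : ρA.IsFlatAt (q : ℕ)) {b : Module.Basis (Fin 2) k ρbar.V} (hb : IsSOBasis ρbar q b)
    (hram : ∃ σ ∈ (primeLocalPlace q).inertiaSubgroupIn ℚ, LinearMap.det (ρbar.ρ σ) ≠ 1) :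
    ∃ x : Ad0 ρbar p, ∀ τ : primeLocalGaloisGroup q,
      m.cocycle p hpk hdet (primeLocalToGlobal q τ) -
        ((ad0 ρbar p).ρ (primeLocalToGlobal q τ) x - x) ∈ W1 ρbar p b :=
  haveI : Fact (q : ℕ).Prime := ⟨q.2⟩
  exists_sub_mem_W1_of_isFlatAt m q hpk h2 hdet (locUnrQuot hq2) hqk hflat hb hram

include m in
/-- **[FL-D], residual twin**: if `ρ̄` has a flat lift to `k[ε]`, a `G_q`-stable line on which the
inertia group acts trivially, and is ramified at `q ≠ 2`, then `ρ̄` has a line with unramified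
quotient. -/
theorem exists_isSOBasis_of_isFlatAt' (hq2 : (q : ℕ) ≠ 2) (hqk : ((q : ℕ) : k) = 0)
    (hflat : ρA.IsFlatAt (q : ℕ)) {b : Module.Basis (Fin 2) k ρbar.V}
    (hstab : ∀ τ : primeLocalGaloisGroup q, IsUT b (ρbar.ρ (primeLocalToGlobal q τ)))
    (hunr : ∀ σ ∈ (primeLocalPlace q).inertiaSubgroupIn ℚ, ρbar.ρ σ (b 0) = b 0)
    (hram : ∃ σ ∈ (primeLocalPlace q).inertiaSubgroupIn ℚ, ρbar.ρ σ ≠ 1) :
    ∃ b' : Module.Basis (Fin 2) k ρbar.V, IsSOBasis ρbar q b' :=
  haveI : Fact (q : ℕ).Prime := ⟨q.2⟩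
  exists_isSOBasis_of_isFlatAt m q (locUnrSub hq2) hqk hflat hstab hunr hram

end Final

end Fermat.Agent.S56.Flat.PThree.LocUnrInst
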